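import Fermat.Agent.S17.FC.MainThm
import Fermat.Agent.S17.HA.MainA
import Fermat.Agent.S17.HA.MainAle
import Fermat.Agent.S17.HA.MainM
import Fermat.Agent.S17.HA.MainX
import Fermat.Agent.S17.Top.Interface

/-!
# S17, block FN (owner helper197): the output `HtOut` of the height blocks

`heightSystem P₀ H : FC.HeightSystem P₀` collects the main theorems of block HA;
`FC.HeightSystem.main` (formal Northcott inequality + cube) and `HA.X_main` give `HtOut H P₀`.
-/

set_option autoImplicit false

noncomputable section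

namespace Fermat.Agent.S17.FN

open AlgebraicCurve Fermat.Agent.S24.FF Fermat.Agent.S27 Fermat.Agent.S17.TP Module

section General

variable {K F : Type} [Field K] [Field F] [Algebra K F] [IsAlgClosed K] [CharZero K] [IsFF1 K F]
  [NonConst K F] (P₀ : Place K F) (H : HeightFn K)

/-- the main theorems of block HA, bundled -/
def heightSystem : FC.HeightSystem P₀ where
  c := HA.cHA K F
  H := HA.Hh P₀ H
  hs := HA.hs P₀ H
  nonneg := HA.Hh_nonneg P₀ H
  mul n m := by
    obtain ⟨C, hC⟩ := HA.M_main P₀ H n m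
    refine ⟨C, fun E hE t ht ht0 => ?_⟩
    have := hC E t hE ht ht0
    rwa [add_assoc] at this
  add := HA.A_main P₀ H
  addLe := HA.Ale_main P₀ H
  line n := ⟨0, fun A s hA hs h => by rw [HA.N1_main P₀ H n A hA s hs h, sub_self, abs_zero]⟩

theorem sumD_eq_hooD (T : FC.Sys (Place K F) (Pic0 K F)) (E : Divisor K F) :
    sumD T.hoo E = T.hooD E := by
  rw [sumD, FC.Sys.hooD, Finsupp.linearCombination_apply]
  refine Finsupp.sum_congr fun P _ => ?_
  rw [zsmul_eq_mul]

theorem pow_mem_Lm {m : ℕ} {x : F} (hx : x ∈ Lm P₀ m) (k : ℕ) : x ^ k ∈ Lm P₀ (k * m) := by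
  rw [Lm, mem_riemannRochSpace_iff] at hx ⊢
  intro v
  rcases hx v with h | h
  · rcases Nat.eq_zero_or_pos k with rfl | hk
    · right
      simp
    · left
      rw [h, zero_pow hk.ne']
  · right
    rw [ord_pow]
    simp only [Finsupp.smul_apply, smul_eq_mul, nsmul_eq_mul] at h ⊢
    push_cast
    have hk : (0 : ℤ) ≤ k := Int.natCast_nonneg k
    nlinarith

theorem ord_nonneg_of_mem_Lm {m : ℕ} {x : F} (hx : x ∈ Lm P₀ m) {P : Place K F} (hP : P ≠ P₀) :
    0 ≤ P.ord x := by
  rw [Lm, mem_riemannRochSpace_iff] at hx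
  rcases hx P with h | h
  · rw [h]; simp
  · rwa [Finsupp.smul_apply, pt_apply_of_ne hP.symm, smul_zero, neg_zero] at h

/-- the height of the value of a function with its only pole at `P₀` -/
theorem point (m : ℕ) (x : F) (hx : x ∈ Lm P₀ m) :
    ∃ C' : ℝ, ∀ P : Place K F, P ≠ P₀ →
      H.h ![1, ev P x] ≤ m * (heightSystem P₀ H).toSys.hoo P + C' := by
  set T := (heightSystem P₀ H).toSys with hT
  rcases Nat.eq_zero_or_pos m with rfl | hm
  · -- constants
    rw [Lm, zero_smul, Riemann.L_zero, Submodule.mem_span_singleton] at hx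
    obtain ⟨a, rfl⟩ := hx
    refine ⟨H.h ![1, a], fun P _ => ?_⟩
    have : ev P (a • (1 : F)) = a := by
      rw [Algebra.smul_def, mul_one, ev_algebraMap]
    rw [this]
    simp
  · set k : ℕ := 1 + T.c with hk
    have hkpos : (0 : ℝ) < k := by
      have : 0 < k := by omega
      exact_mod_cast this
    have hn : 1 + T.c ≤ k * m := by
      calc 1 + T.c = k * 1 := by rw [mul_one]
        _ ≤ k * m := Nat.mul_le_mul_left k hm
    have h1 : (1 : F) ∈ Lm P₀ (k * m) := by
      have := algebraMap_mem_riemannRochSpace (K := K) (F := F) (D := (k * m) • pt P₀)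
        (smul_nonneg (Nat.zero_le _) (pt_nonneg P₀)) 1
      rwa [map_one] at this
    obtain ⟨C₁, hC₁⟩ := HA.X_main P₀ H (k * m) 1 (x ^ k) h1 (pow_mem_Lm P₀ hx k)
    obtain ⟨C₂, hC₂⟩ := T.H_point_eq (k * m) hn
    refine ⟨(C₁ + C₂) / k, fun P hP => ?_⟩
    have e₁ := hC₁ P hP
    have e₂ := abs_le.mp (hC₂ P)
    have hev1 : ev P (1 : F) = 1 := by
      have := ev_algebraMap (K := K) (F := F) P 1
      rwa [map_one] at this
    have hevk : ev P (x ^ k) = ev P x ^ k :=
      ev_eq_of_isVal ((isVal_ev (ord_nonneg_of_mem_Lm P₀ hx hP)).pow k)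
    have hvec : (![ev P (1 : F), ev P (x ^ k)] : Fin 2 → K) = fun i => (![1, ev P x] : Fin 2 → K) i ^ k := by
      funext i
      fin_cases i
      · simp [hev1]
      · simp [hevk]
    rw [hvec, H.pow] at e₁
    have hH : T.H (k * m) (Finsupp.single P 1) = HA.Hh P₀ H (k * m) (pt P) := rfl
    rw [hH] at e₂
    have e₃ : (k : ℝ) * H.h ![1, ev P x] ≤ k * (m * T.hoo P) + (C₁ + C₂) := by
      have := e₂.2
      push_cast at this
      nlinarith
    rw [← sub_nonneg] at e₃ ⊢
    have : m * T.hoo P + (C₁ + C₂) / k - H.h ![1, ev P x]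
        = (k * (m * T.hoo P) + (C₁ + C₂) - k * H.h ![1, ev P x]) / k := by
      field_simp
    rw [this]
    exact div_nonneg e₃ hkpos.le

end General

/-- **The deliverable of the height blocks.** -/
theorem htOut {F : Type} [Field F] [Algebra Qb F] [IsFF1 Qb F] [NonConst Qb F]
    (H : TP.HeightFn Qb) (P₀ : Place Qb F) : Nonempty (HtOut H P₀) := by
  obtain ⟨Z, C, hcube, hlow⟩ := (heightSystem P₀ H).main
  exact ⟨{
    f := (heightSystem P₀ H).toSys.f
    hoo := (heightSystem P₀ H).toSys.hoo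
    Z := Z
    C := C
    cube := hcube
    hoo_nonneg := (heightSystem P₀ H).hoo_nonneg
    lower := fun z E hE => by
      rw [sumD_eq_hooD]
      exact hlow z E hE
    point := point P₀ H }⟩

end Fermat.Agent.S17.FN

end
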